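import Mathlib

/-!
# Row LT, tower T1, leaf LC (helper11): local compactness of the adelic objects

OFF-MAIN.  Mathlib only; NO definitions, only facts about Mathlib objects, so every tower Spec
can use them (`haveI := ...`).  For a number field `K`, a finite place `v` of `𝓞 K`:

* `finite_residueField_h11`        : the residue field of `𝒪_v` is finite (general Dedekind `R` with
                                      finite `R ⧸ v`),
* `compactSpace_integers_h11`      : `𝒪_v = v.adicCompletionIntegers K` is compact,
* `locallyCompactSpace_adicCompletion_h11` : `K_v` is locally compact,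
* `locallyCompactSpace_finiteAdeleRing_h11`, `locallyCompactSpace_adeleRing_h11`,
* `t2Space_finiteAdeleRing_h11`, `t2Space_adeleRing_h11`,
* `locallyCompactSpace_GL2_adeleRing_h11`, `t2Space_GL2_adeleRing_h11` : `GL₂(𝔸_K)` (units
  topology) is a locally compact Hausdorff group (`IsTopologicalGroup` is a Mathlib instance).
-/

set_option autoImplicit false

open IsDedekindDomain NumberField
open scoped RestrictedProduct

namespace Fermat.Agent.LT.H11.LC

section General

variable {R : Type*} [CommRing R] [IsDedekindDomain R] (K : Type*) [Field K] [Algebra R K]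
  [IsFractionRing R K] (v : HeightOneSpectrum R)

/-- The open unit ball of `K_v` is open. -/
theorem isOpen_valued_lt_one_h11 : IsOpen {z : v.adicCompletion K | Valued.v z < 1} := by
  have := Valued.isOpen_ball (v.adicCompletion K) (1 : _)
  simpa only [Valuation.restrict_lt_one_iff] using this

/-- Every element of the completed local ring `𝒪_v` is congruent modulo the maximal ideal to an
element of `R`. -/
theorem exists_valued_sub_algebraMap_lt_one_h11 (x : v.adicCompletion K)
    (hx : Valued.v x ≤ 1) :
    ∃ r : R, Valued.v (x - algebraMap R (v.adicCompletion K) r) < 1 := by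
  -- density of `K`
  have hopen : IsOpen {y : v.adicCompletion K | Valued.v (x - y) < 1} := by
    have h1 : {y : v.adicCompletion K | Valued.v (x - y) < 1}
        = (fun y => x - y) ⁻¹' {z | Valued.v z < 1} := rfl
    rw [h1]
    exact IsOpen.preimage (by fun_prop) (isOpen_valued_lt_one_h11 K v)
  have hne : ({y : v.adicCompletion K | Valued.v (x - y) < 1}).Nonempty :=
    ⟨x, by simp⟩
  obtain ⟨k, hk⟩ := (HeightOneSpectrum.denseRange_algebraMap K v).exists_mem_open hopen hne
  replace hk : Valued.v (x - algebraMap K (v.adicCompletion K) k) < 1 := hk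
  -- `k` is integral at `v`
  have hk1 : Valued.v (algebraMap K (v.adicCompletion K) k) ≤ 1 := by
    have : algebraMap K (v.adicCompletion K) k = x - (x - algebraMap K (v.adicCompletion K) k) := by
      ring
    rw [this]
    exact le_trans (Valuation.map_sub _ _ _) (max_le hx hk.le)
  have key : ∀ y : K, Valued.v (algebraMap K (v.adicCompletion K) y) = v.valuation K y :=
    fun y => HeightOneSpectrum.valuedAdicCompletion_eq_valuation' v y
  have hk2 : v.valuation K k ≤ 1 := by
    rw [← key]
    exact hk1
  obtain ⟨a, ha⟩ := HeightOneSpectrum.exists_valuation_sub_lt_of_integer v hk2 1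
  refine ⟨a, ?_⟩
  have ha' : Valued.v (algebraMap K (v.adicCompletion K) k
      - algebraMap R (v.adicCompletion K) a) < 1 := by
    have e : algebraMap K (v.adicCompletion K) k - algebraMap R (v.adicCompletion K) a
        = algebraMap K (v.adicCompletion K) (k - algebraMap R K a) := by
      rw [map_sub, ← IsScalarTower.algebraMap_apply]
    rw [e, key]
    rw [Valuation.map_sub_swap] at ha
    simpa using ha
  have : x - algebraMap R (v.adicCompletion K) a
      = (x - algebraMap K (v.adicCompletion K) k)
        + (algebraMap K (v.adicCompletion K) k - algebraMap R (v.adicCompletion K) a) := by ring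
  rw [this]
  exact lt_of_le_of_lt (Valuation.map_add _ _ _) (max_lt hk ha')

/-- Membership in the maximal ideal of `𝒪_v`. -/
theorem mem_maximalIdeal_iff_h11 (a : v.adicCompletionIntegers K) :
    a ∈ IsLocalRing.maximalIdeal (v.adicCompletionIntegers K) ↔
      Valued.v (a : v.adicCompletion K) < 1 := by
  rw [IsLocalRing.mem_maximalIdeal, mem_nonunits_iff,
    HeightOneSpectrum.adicCompletionIntegers.isUnit_iff_valued_eq_one]
  have h1 : Valued.v (a : v.adicCompletion K) ≤ 1 :=
    (HeightOneSpectrum.mem_adicCompletionIntegers R K v).1 a.2
  exact ⟨fun h => lt_of_le_of_ne h1 h, fun h => ne_of_lt h⟩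

theorem coe_algebraMap_integers_h11 (r : R) :
    ((algebraMap R (v.adicCompletionIntegers K) r : v.adicCompletionIntegers K) :
        v.adicCompletion K) = algebraMap R (v.adicCompletion K) r := by
  rfl

/-- The residue field of the completed local ring `𝒪_v` is a quotient of `R ⧸ v`, hence finite
when `R ⧸ v` is. -/
theorem finite_residueField_h11 [Finite (R ⧸ v.asIdeal)] :
    Finite (IsLocalRing.ResidueField (v.adicCompletionIntegers K)) := by
  let f : R →+* IsLocalRing.ResidueField (v.adicCompletionIntegers K) :=
    (IsLocalRing.residue (v.adicCompletionIntegers K)).comp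
      (algebraMap R (v.adicCompletionIntegers K))
  have hker : ∀ r ∈ v.asIdeal, f r = 0 := by
    intro r hr
    change IsLocalRing.residue _ (algebraMap R (v.adicCompletionIntegers K) r) = 0
    rw [IsLocalRing.residue_eq_zero_iff, mem_maximalIdeal_iff_h11, coe_algebraMap_integers_h11]
    have h2 := HeightOneSpectrum.valuedAdicCompletion_eq_valuation (K := K) v r
    have h3 : Valued.v (algebraMap R (v.adicCompletion K) r) = v.valuation K (algebraMap R K r) :=
      h2
    rw [h3, HeightOneSpectrum.valuation_of_algebraMap]
    exact (HeightOneSpectrum.intValuation_lt_one_iff_mem v r).2 hr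
  have hsurj : Function.Surjective (Ideal.Quotient.lift v.asIdeal f hker) := by
    intro y
    obtain ⟨x, rfl⟩ := IsLocalRing.residue_surjective y
    obtain ⟨r, hr⟩ := exists_valued_sub_algebraMap_lt_one_h11 K v (x : v.adicCompletion K)
      ((HeightOneSpectrum.mem_adicCompletionIntegers R K v).1 x.2)
    refine ⟨Ideal.Quotient.mk _ r, ?_⟩
    rw [Ideal.Quotient.lift_mk]
    change IsLocalRing.residue _ (algebraMap R (v.adicCompletionIntegers K) r) = _
    rw [eq_comm, ← sub_eq_zero, ← map_sub, IsLocalRing.residue_eq_zero_iff,
      mem_maximalIdeal_iff_h11]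
    exact hr
  exact Finite.of_surjective _ hsurj

/-- `𝒪_v` is complete. -/
theorem completeSpace_integers_h11 : CompleteSpace (v.adicCompletionIntegers K) :=
  (Valued.isClosed_valuationSubring (v.adicCompletion K)).completeSpace_coe

/-- The finite adele ring is Hausdorff. -/
theorem t2Space_finiteAdeleRing_h11 : T2Space (FiniteAdeleRing R K) :=
  inferInstanceAs (T2Space
    (Πʳ v : HeightOneSpectrum R, [v.adicCompletion K, v.adicCompletionIntegers K]))

/-- Matrices over a locally compact space. -/
theorem locallyCompactSpace_matrix_h11 (n : Type*) [Fintype n] (A : Type*) [TopologicalSpace A]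
    [LocallyCompactSpace A] : LocallyCompactSpace (Matrix n n A) :=
  inferInstanceAs (LocallyCompactSpace (n → n → A))

/-- Matrices over a Hausdorff space. -/
theorem t2Space_matrix_h11 (n : Type*) (A : Type*) [TopologicalSpace A]
    [T2Space A] : T2Space (Matrix n n A) :=
  inferInstanceAs (T2Space (n → n → A))

end General

section NF

variable (K : Type*) [Field K] [NumberField K] (v : HeightOneSpectrum (𝓞 K))

/-- `𝒪_v` is compact. -/
theorem compactSpace_integers_h11 : CompactSpace (v.adicCompletionIntegers K) := by
  have h := (Valued.integer.compactSpace_iff_completeSpace_and_isDiscreteValuationRing_and_finite_residueField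
    (K := v.adicCompletion K)).2
  exact h ⟨completeSpace_integers_h11 K v,
    (inferInstance : IsDiscreteValuationRing (v.adicCompletionIntegers K)),
    finite_residueField_h11 K v⟩

/-- `𝒪_v` is a compact subset of `K_v`. -/
theorem isCompact_integers_h11 :
    IsCompact (v.adicCompletionIntegers K : Set (v.adicCompletion K)) := by
  have := compactSpace_integers_h11 K v
  exact isCompact_iff_compactSpace.2 inferInstance

/-- `K_v` is locally compact. -/
theorem locallyCompactSpace_adicCompletion_h11 : LocallyCompactSpace (v.adicCompletion K) :=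
  (isCompact_integers_h11 K v).locallyCompactSpace_of_mem_nhds_of_addGroup
    ((Valued.isOpen_valuationSubring (v.adicCompletion K)).mem_nhds (zero_mem _))

/-- The finite adele ring of a number field is locally compact. -/
theorem locallyCompactSpace_finiteAdeleRing_h11 :
    LocallyCompactSpace (FiniteAdeleRing (𝓞 K) K) := by
  have : Fact (∀ v : HeightOneSpectrum (𝓞 K),
      IsOpen (v.adicCompletionIntegers K : Set (v.adicCompletion K))) :=
    ⟨fun _ ↦ Valued.isOpen_valuationSubring _⟩
  have : ∀ v : HeightOneSpectrum (𝓞 K), CompactSpace (v.adicCompletionIntegers K) :=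
    fun v => compactSpace_integers_h11 K v
  exact inferInstanceAs (LocallyCompactSpace
    (Πʳ v : HeightOneSpectrum (𝓞 K), [v.adicCompletion K, v.adicCompletionIntegers K]))

/-- The adele ring of a number field is locally compact. -/
theorem locallyCompactSpace_adeleRing_h11 :
    LocallyCompactSpace (NumberField.AdeleRing (𝓞 K) K) := by
  have := locallyCompactSpace_finiteAdeleRing_h11 K
  exact inferInstanceAs (LocallyCompactSpace (InfiniteAdeleRing K × FiniteAdeleRing (𝓞 K) K))

omit [NumberField K] in
/-- The infinite adele ring is Hausdorff. -/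
theorem t2Space_infiniteAdeleRing_h11 : T2Space (InfiniteAdeleRing K) :=
  inferInstanceAs (T2Space ((w : InfinitePlace K) → w.Completion))

/-- The adele ring of a number field is Hausdorff. -/
theorem t2Space_adeleRing_h11 : T2Space (NumberField.AdeleRing (𝓞 K) K) := by
  have := t2Space_finiteAdeleRing_h11 (R := 𝓞 K) K
  have := t2Space_infiniteAdeleRing_h11 K
  exact inferInstanceAs (T2Space (InfiniteAdeleRing K × FiniteAdeleRing (𝓞 K) K))

/-- `GL₂(𝔸_K)` is locally compact. -/
theorem locallyCompactSpace_GL2_adeleRing_h11 :
    LocallyCompactSpace (GL (Fin 2) (NumberField.AdeleRing (𝓞 K) K)) := by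
  have := locallyCompactSpace_adeleRing_h11 K
  have := t2Space_adeleRing_h11 K
  have := locallyCompactSpace_matrix_h11 (Fin 2) (NumberField.AdeleRing (𝓞 K) K)
  have := t2Space_matrix_h11 (Fin 2) (NumberField.AdeleRing (𝓞 K) K)
  infer_instance

/-- `GL₂(𝔸_K)` is Hausdorff. -/
theorem t2Space_GL2_adeleRing_h11 :
    T2Space (GL (Fin 2) (NumberField.AdeleRing (𝓞 K) K)) := by
  have := t2Space_adeleRing_h11 K
  have := t2Space_matrix_h11 (Fin 2) (NumberField.AdeleRing (𝓞 K) K)
  infer_instance

/-- `GL₂(K_v)` is locally compact. -/
theorem locallyCompactSpace_GL2_adicCompletion_h11 :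
    LocallyCompactSpace (GL (Fin 2) (v.adicCompletion K)) := by
  have := locallyCompactSpace_adicCompletion_h11 K v
  have := locallyCompactSpace_matrix_h11 (Fin 2) (v.adicCompletion K)
  have := t2Space_matrix_h11 (Fin 2) (v.adicCompletion K)
  infer_instance

end NF

end Fermat.Agent.LT.H11.LC
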