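import Mathlib
import Fermat.Agent.LT.H11.LC

/-!
# Row LT, tower T1, leaf SC (helper11): second countability and σ-compactness

OFF-MAIN.  Mathlib + `LC.lean` only; NO definitions.  For a number field `K`:

* `secondCountableTopology_restrictedProduct_h11` : a restricted product over a countable index
  set of second countable spaces with respect to open subsets is second countable (general),
* `countable_numberField_h11`, `countable_heightOneSpectrum_h11`,
* `secondCountableTopology_adicCompletion_h11`, `secondCountableTopology_infCompletion_h11`,
* `secondCountableTopology_finiteAdeleRing_h11`, `secondCountableTopology_adeleRing_h11`,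
  `secondCountableTopology_GL2_adeleRing_h11`,
* `sigmaCompactSpace_adeleRing_h11`, `sigmaCompactSpace_GL2_adeleRing_h11`.

Consequences for the towers: every Haar measure on `𝔸_K` and on `GL₂(𝔸_K)` (Borel σ-algebra) is
σ-finite, Fubini applies, `L²` is separable.
-/

set_option autoImplicit false

open IsDedekindDomain NumberField Filter Set TopologicalSpace Topology
open scoped RestrictedProduct

namespace Fermat.Agent.LT.H11.SC

open Fermat.Agent.LT.H11.LC

section RP

variable {ι : Type*} (R : ι → Type*) (A : (i : ι) → Set (R i)) [∀ i, TopologicalSpace (R i)]

/-- The restricted product over a countable index set of second countable spaces, with respect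
to open subsets, is second countable. -/
theorem secondCountableTopology_restrictedProduct_h11 [Countable ι]
    [∀ i, SecondCountableTopology (R i)] (hAopen : ∀ i, IsOpen (A i)) :
    SecondCountableTopology (Πʳ i, [R i, A i]) := by
  classical
  -- index the cover by finite sets
  let S : Finset ι → Set ι := fun T => ((T : Set ι))ᶜ
  have hS : ∀ T : Finset ι, cofinite ≤ 𝓟 (S T) := by
    intro T
    rw [le_principal_iff]
    exact T.finite_toSet.compl_mem_cofinite
  let U : Finset ι → Set (Πʳ i, [R i, A i]) := fun T =>
    Set.range (RestrictedProduct.inclusion R A (hS T))
  have hemb : ∀ T, IsOpenEmbedding (RestrictedProduct.inclusion R A (hS T)) :=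
    fun T => RestrictedProduct.isOpenEmbedding_inclusion_principal hAopen (hS T)
  have hsc : ∀ T, SecondCountableTopology (Πʳ i, [R i, A i]_[𝓟 (S T)]) := fun T =>
    (RestrictedProduct.isEmbedding_coe_of_principal (R := R) (A := A)
      (S := S T)).secondCountableTopology
  have hU : ∀ T, SecondCountableTopology (U T) := by
    intro T
    have := hsc T
    have e := (hemb T).isEmbedding.toHomeomorph
    exact e.symm.secondCountableTopology
  refine secondCountableTopology_of_countable_cover (U := U) (fun T => (hemb T).isOpen_range) ?_
  rw [Set.eq_univ_iff_forall]
  intro x
  rw [Set.mem_iUnion]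
  have hx : {i | x i ∉ A i}.Finite := by
    have := x.2
    rwa [eventually_cofinite] at this
  refine ⟨hx.toFinset, ?_⟩
  change x ∈ Set.range _
  rw [RestrictedProduct.range_inclusion]
  rw [Set.mem_ofPred_eq, eventually_principal]
  intro i hi
  by_contra h
  exact hi (by simpa using h)

end RP

/-- A number field is countable. -/
theorem countable_numberField_h11 (K : Type*) [Field K] [NumberField K] : Countable K := by
  have e := (Module.finBasis ℚ K).equivFun.toEquiv
  exact e.countable_iff.2 inferInstance

/-- The ideals of a countable noetherian ring form a countable set. -/
theorem countable_ideal_h11 (R : Type*) [CommRing R] [Countable R] [IsNoetherianRing R] :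
    Countable (Ideal R) := by
  have hs : Function.Surjective (fun s : Finset R => Ideal.span (s : Set R)) := by
    intro I
    obtain ⟨s, hs⟩ := (IsNoetherian.noetherian I : I.FG)
    exact ⟨s, hs⟩
  exact hs.countable

/-- Matrices over a second countable space. -/
theorem secondCountableTopology_matrix_h11 (n : Type*) [Countable n] (A : Type*)
    [TopologicalSpace A] [SecondCountableTopology A] :
    SecondCountableTopology (Matrix n n A) :=
  inferInstanceAs (SecondCountableTopology (n → n → A))

/-- Units of a second countable monoid (units topology). -/
theorem secondCountableTopology_units_h11 (M : Type*) [Monoid M] [TopologicalSpace M]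
    [SecondCountableTopology M] : SecondCountableTopology Mˣ := by
  have : SecondCountableTopology Mᵐᵒᵖ :=
    (MulOpposite.opHomeomorph (M := M)).symm.secondCountableTopology
  exact Units.isEmbedding_embedProduct.secondCountableTopology

section NF

variable (K : Type*) [Field K] [NumberField K] (v : HeightOneSpectrum (𝓞 K))

/-- The ring of integers of a number field is countable. -/
theorem countable_ringOfIntegers_h11 : Countable (𝓞 K) := by
  have := countable_numberField_h11 K
  exact (RingOfIntegers.coe_injective (K := K)).countable

/-- The set of finite places of a number field is countable. -/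
theorem countable_heightOneSpectrum_h11 : Countable (HeightOneSpectrum (𝓞 K)) := by
  have := countable_ringOfIntegers_h11 K
  have := countable_ideal_h11 (𝓞 K)
  have hinj : Function.Injective (fun v : HeightOneSpectrum (𝓞 K) => v.asIdeal) := by
    intro a b h
    exact HeightOneSpectrum.ext h
  exact hinj.countable

/-- `K_v` is separable. -/
theorem separableSpace_adicCompletion_h11 : SeparableSpace (v.adicCompletion K) := by
  have := countable_numberField_h11 K
  exact ⟨⟨Set.range (algebraMap K (v.adicCompletion K)), Set.countable_range _,
    HeightOneSpectrum.denseRange_algebraMap K v⟩⟩

/-- `K_v` is second countable. -/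
theorem secondCountableTopology_adicCompletion_h11 :
    SecondCountableTopology (v.adicCompletion K) := by
  have := separableSpace_adicCompletion_h11 K v
  exact UniformSpace.secondCountable_of_separable _

/-- The completion at an infinite place is separable. -/
theorem separableSpace_infCompletion_h11 (w : InfinitePlace K) :
    SeparableSpace w.Completion := by
  have := countable_numberField_h11 K
  have hd : DenseRange ((↑) : WithAbs w.1 → w.Completion) :=
    InfinitePlace.Completion.denseRange_coe w
  have : Countable (WithAbs w.1) := (WithAbs.equiv w.1).toEquiv.countable_iff.2 inferInstance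
  exact ⟨⟨Set.range _, Set.countable_range _, hd⟩⟩

/-- The completion at an infinite place is second countable. -/
theorem secondCountableTopology_infCompletion_h11 (w : InfinitePlace K) :
    SecondCountableTopology w.Completion := by
  have := separableSpace_infCompletion_h11 K w
  exact UniformSpace.secondCountable_of_separable _

/-- The finite adele ring of a number field is second countable. -/
theorem secondCountableTopology_finiteAdeleRing_h11 :
    SecondCountableTopology (FiniteAdeleRing (𝓞 K) K) := by
  have := countable_heightOneSpectrum_h11 K
  have : ∀ v : HeightOneSpectrum (𝓞 K), SecondCountableTopology (v.adicCompletion K) :=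
    fun v => secondCountableTopology_adicCompletion_h11 K v
  exact secondCountableTopology_restrictedProduct_h11
    (fun v : HeightOneSpectrum (𝓞 K) => v.adicCompletion K)
    (fun v => (v.adicCompletionIntegers K : Set (v.adicCompletion K)))
    (fun v => Valued.isOpen_valuationSubring _)

/-- The infinite adele ring of a number field is second countable. -/
theorem secondCountableTopology_infiniteAdeleRing_h11 :
    SecondCountableTopology (InfiniteAdeleRing K) := by
  have : ∀ w : InfinitePlace K, SecondCountableTopology w.Completion :=
    fun w => secondCountableTopology_infCompletion_h11 K w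
  exact inferInstanceAs (SecondCountableTopology ((w : InfinitePlace K) → w.Completion))

/-- The adele ring of a number field is second countable. -/
theorem secondCountableTopology_adeleRing_h11 :
    SecondCountableTopology (NumberField.AdeleRing (𝓞 K) K) := by
  have := secondCountableTopology_finiteAdeleRing_h11 K
  have := secondCountableTopology_infiniteAdeleRing_h11 K
  exact inferInstanceAs
    (SecondCountableTopology (InfiniteAdeleRing K × FiniteAdeleRing (𝓞 K) K))

/-- `GL₂(𝔸_K)` is second countable. -/
theorem secondCountableTopology_GL2_adeleRing_h11 :
    SecondCountableTopology (GL (Fin 2) (NumberField.AdeleRing (𝓞 K) K)) := by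
  have := secondCountableTopology_adeleRing_h11 K
  have := secondCountableTopology_matrix_h11 (Fin 2) (NumberField.AdeleRing (𝓞 K) K)
  exact secondCountableTopology_units_h11 _

/-- The adele ring of a number field is σ-compact. -/
theorem sigmaCompactSpace_adeleRing_h11 :
    SigmaCompactSpace (NumberField.AdeleRing (𝓞 K) K) := by
  have := secondCountableTopology_adeleRing_h11 K
  have := locallyCompactSpace_adeleRing_h11 K
  infer_instance

/-- `GL₂(𝔸_K)` is σ-compact. -/
theorem sigmaCompactSpace_GL2_adeleRing_h11 :
    SigmaCompactSpace (GL (Fin 2) (NumberField.AdeleRing (𝓞 K) K)) := by
  have := secondCountableTopology_GL2_adeleRing_h11 K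
  have := locallyCompactSpace_GL2_adeleRing_h11 K
  infer_instance

end NF

end Fermat.Agent.LT.H11.SC
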